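import Mathlib

/-!
# Row LT, tower T7, asset (helper666): THE RAMIFIED PLACES divide one non-zero ideal

OFF-MAIN.  Mathlib only.  No hole, nothing assumed.

`K'/K` an extension of number fields.  `ramIdeal666 K K'` = the contraction to `𝓞 K` of the
relative different of `𝓞 K' / 𝓞 K`:

* `ramIdeal_ne_bot666 : ramIdeal666 K K' ≠ ⊥`;
* `dvd_ramIdeal666`   : if `w ∩ 𝓞 K = v` and `w² ∣ v 𝓞_{K'}` (`w` is RAMIFIED over `v`) then
  `v ∣ ramIdeal666 K K'`.

So a level of `K` which is divisible by `ramIdeal666 K K'` is divisible by every place of `K`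
which ramifies in `K'` (use: the base level of the geometric half of the comparison, where the
places outside the level must be unramified - `coord/RAM666.md`).
-/

set_option autoImplicit false

open IsDedekindDomain NumberField

noncomputable section

namespace Fermat.Agent.LT.T7.H666

variable {K K' : Type} [Field K] [NumberField K] [Field K'] [NumberField K'] [Algebra K K']

/-- The contraction to `𝓞 K` of the relative different of `K'/K`. -/
def ramIdeal666 (K K' : Type) [Field K] [NumberField K] [Field K'] [NumberField K']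
    [Algebra K K'] : Ideal (𝓞 K) :=
  Ideal.comap (algebraMap (𝓞 K) (𝓞 K')) (differentIdeal (𝓞 K) (𝓞 K'))

theorem ramIdeal_ne_bot666 : ramIdeal666 K K' ≠ ⊥ := by
  intro h
  have hne : differentIdeal (𝓞 K) (𝓞 K') ≠ ⊥ := differentIdeal_ne_bot
  have h1 : ((Ideal.absNorm (differentIdeal (𝓞 K) (𝓞 K')) : ℕ) : 𝓞 K')
      ∈ differentIdeal (𝓞 K) (𝓞 K') := Ideal.absNorm_mem _
  have h2 : ((Ideal.absNorm (differentIdeal (𝓞 K) (𝓞 K')) : ℕ) : 𝓞 K) ∈ ramIdeal666 K K' := by
    rw [ramIdeal666, Ideal.mem_comap, map_natCast]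
    exact h1
  rw [h, Ideal.mem_bot] at h2
  have h3 : Ideal.absNorm (differentIdeal (𝓞 K) (𝓞 K')) = 0 := by exact_mod_cast h2
  rw [Ideal.absNorm_eq_zero_iff] at h3
  exact hne h3

/-- A place `v` of `K` under a place `w` of `K'` with `w² ∣ v 𝒪_{K'}` (a RAMIFIED place) divides
the contraction of the different. -/
theorem dvd_ramIdeal666 (v : HeightOneSpectrum (𝓞 K)) (w : HeightOneSpectrum (𝓞 K'))
    (hvw : Ideal.comap (algebraMap (𝓞 K) (𝓞 K')) w.asIdeal = v.asIdeal)
    (h : w.asIdeal ^ 2 ∣ Ideal.map (algebraMap (𝓞 K) (𝓞 K')) v.asIdeal) :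
    v.asIdeal ∣ ramIdeal666 K K' := by
  have hmax : v.asIdeal.IsMaximal := v.isMaximal
  have h1 : w.asIdeal ^ (2 - 1) ∣ differentIdeal (𝓞 K) (𝓞 K') :=
    pow_sub_one_dvd_differentIdeal (𝓞 K) w.asIdeal 2 v.ne_bot h
  simp only [Nat.add_one_sub_one, pow_one] at h1
  rw [Ideal.dvd_iff_le, ramIdeal666, ← hvw]
  exact Ideal.comap_mono (Ideal.dvd_iff_le.mp h1)

end Fermat.Agent.LT.T7.H666

end
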