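import Mathlib
import Fermat.Agent.LT.T7.H893.SupplySpec
import Fermat.Agent.LT.T7.H416.Setup
import Fermat.Agent.LT.T7.H666.Ram

/-!
# Row LT, tower T7, leaf T7.L2.1.C0 with UNRAMIFIED COMPLEMENT (helper666)

OFF-MAIN.  ADDITIVE (new names only).  No hole, nothing assumed.  Against
`LT/T7/H893/SupplySpec.lean` (helper893, sha256 c18d8efa) and the proof of `SetupC` by helper416
(`LT/T7/H416/Setup.lean`, byte-identical copies of helper416's closure).

`IsL2Base` does not say that the places of `K'` which are ramified over `K` lie in `S'`, and the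
matching outside `S'` (`T6.FundLemmaC`: `e = 1`; `T6.SplitMatchC`) needs it (`coord/RAM666.md`).
This file delivers the common part WITH that property:

* `IsUnramOut666 B` : every place `w ∉ B.S'` is unramified over `K` (`¬ w² ∣ v 𝒪_{K'}`, `v` the
  place below `w`);
* `SetupRC666 K K'` : `SetupC K K'` with `∃ B, IsL2Base ℓ Φ B ∧ IsUnramOut666 B`;
* PROVED `setupRC666 K K' : SetupRC666 K K'` (UNCONDITIONAL; the construction of helper416 with
  the auxiliary level multiplied by the contraction of the relative different, `Ram.lean`);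
* `setupC_of_R666 : SetupRC666 K K' → H893.SetupC K K'`.
-/

set_option autoImplicit false
set_option linter.style.haveILetI false
set_option linter.unusedSectionVars false

open IsDedekindDomain NumberField MeasureTheory AutomorphicForm
open scoped Pointwise

noncomputable section

namespace Fermat.Agent.LT.T7.H666

open Fermat.Agent.LT.H556 Fermat.Agent.LT.H556.A0 Fermat.Agent.LT.T7 Fermat.Agent.LT.T7.H893
open Fermat.Agent.LT.T7.H930 Fermat.Agent.LT.T1.H930 Fermat.Agent.LT.T7.H416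

attribute [local instance] Fermat.Agent.LT.T5.instMeasurableSpaceG

section Defs

variable {K K' : Type} [Field K] [NumberField K] [Field K'] [NumberField K'] [Algebra K K']

/-- The places of `K'` outside `S'` are UNRAMIFIED over `K`. -/
def IsUnramOut666 (B : L2Base K K') : Prop :=
  ∀ (v : HeightOneSpectrum (𝓞 K)) (w : HeightOneSpectrum (𝓞 K')), PlaceOver K K' v w →
    w ∉ B.S' → ¬ w.asIdeal ^ 2 ∣ upI (K' := K') v.asIdeal

end Defs

section Main

variable (K K' : Type) [Field K] [NumberField K] [Field K'] [NumberField K'] [Algebra K K']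

/-- **LEAF T7.L2.1.C0 with unramified complement.** -/
def SetupRC666 : Prop :=
  ∀ ℓ : ℕ, IsCycExt K K' ℓ → ℓ ≠ 2 → TotCplx K →
    ∀ Φ : HeckeEigensystem K' ℂ, A0.IsCuspAdelicSph0 K' Φ → ConstOnFibres K Φ →
      ∃ B : L2Base K K', IsL2Base ℓ Φ B ∧ IsUnramOut666 B

variable {K K'} in
theorem setupC_of_R666 (h : SetupRC666 K K') : SetupC K K' :=
  fun ℓ hcyc hℓ hcplx Φ hΦ hconst =>
    let ⟨B, hB, _⟩ := h ℓ hcyc hℓ hcplx Φ hΦ hconst
    ⟨B, hB⟩

/-- **The common part of the data of level 2 exists, with all ramified places in `S'`.** -/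
theorem setupRC666 : SetupRC666 K K' := by
  classical
  intro ℓ h _ _ Φ _ hconst
  haveI := h.galois
  have hℓ := h.prime
  have hcard : Nat.card (K' ≃ₐ[K] K') = ℓ := by
    rw [IsGalois.card_aut_eq_finrank, h.degree]
  obtain ⟨σ, hpow, hfix, hfaith⟩ := exists_generator930 K K' ℓ hℓ h.degree
  obtain ⟨μ, F, r, hF, hr, -⟩ :=
    Fermat.Agent.LT.T5.H62.frame_exists_of_T1Out62 K ⊤ (Fermat.Agent.LT.T1.t1Out K)
  obtain ⟨μ', F', r', hF', hr', -⟩ :=
    Fermat.Agent.LT.T5.H62.frame_exists_of_T1Out62 K' ⊤ (Fermat.Agent.LT.T1.t1Out K')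
  have hLC : LocallyCompactSpace (G K') := (Fermat.Agent.LT.T1.t1Out K').locComp.2.1
  have hSC : SecondCountableTopology (G K') := (Fermat.Agent.LT.T1.t1Out K').locComp.2.2.2
  obtain ⟨Sexc, hSexc⟩ := hconst
  -- the auxiliary level
  set 𝔪 : Ideal (𝓞 K) := Ideal.comap (algebraMap (𝓞 K) (𝓞 K')) Φ.level *
    (∏ w ∈ Sexc, (below416 (K := K) w).asIdeal) * ramIdeal666 K K' with h𝔪
  have h𝔪ne : 𝔪 ≠ ⊥ := by
    rw [h𝔪, ← Ideal.zero_eq_bot]
    refine mul_ne_zero (mul_ne_zero (comap_ne_bot416 Φ.level_ne_bot) ?_) ?_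
    · rw [Finset.prod_ne_zero_iff]
      intro w _
      exact (below416 (K := K) w).ne_bot
    · rw [Ideal.zero_eq_bot]
      exact ramIdeal_ne_bot666
  have hlev𝔪 : Ideal.comap (algebraMap (𝓞 K) (𝓞 K')) Φ.level ∣ 𝔪 :=
    (Dvd.intro _ rfl : _ ∣ Ideal.comap (algebraMap (𝓞 K) (𝓞 K')) Φ.level *
      (∏ w ∈ Sexc, (below416 (K := K) w).asIdeal)).mul_right _
  have hexc𝔪 : ∀ w ∈ Sexc, (below416 (K := K) w).asIdeal ∣ 𝔪 := fun w hw =>
    (Dvd.dvd.mul_left (Finset.dvd_prod_of_mem _ hw) _).mul_right _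
  have hram𝔪 : ramIdeal666 K K' ∣ 𝔪 := Dvd.intro_left _ rfl
  set M : ℕ := Ideal.absNorm 𝔪 with hM
  have hMne : M ≠ 0 := by rw [hM, Ne, Ideal.absNorm_eq_zero_iff]; exact h𝔪ne
  -- the place `w₀`
  have hσx : ∃ x : K', σ x ≠ x := by
    obtain ⟨x, hx⟩ := hfaith 1 one_pos hℓ.one_lt
    exact ⟨x, by simpa using hx⟩
  obtain ⟨θ, hθ⟩ := exists_moved416 hσx
  obtain ⟨p, w, hp, hpM, hwprime, hpw, hmoved⟩ :=
    exists_prime_moved416 K' (oEquiv416 σ) θ hθ M hMne
  have hwne : w ≠ ⊥ := by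
    rintro rfl
    rw [Ideal.mem_bot] at hpw
    have : p = 0 := by exact_mod_cast hpw
    exact hp.ne_zero this
  set w₀ : HeightOneSpectrum (𝓞 K') := ⟨w, hwprime, hwne⟩ with hw₀
  have hmoved' : mapPlace416 σ w₀ ≠ w₀ := by
    intro h1
    apply hmoved
    have := congrArg HeightOneSpectrum.asIdeal h1
    exact this
  set u : HeightOneSpectrum (𝓞 K) := below416 w₀ with hu
  have hpu : (p : 𝓞 K) ∈ u.asIdeal := by
    show (p : 𝓞 K) ∈ Ideal.comap (algebraMap (𝓞 K) (𝓞 K')) w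
    rw [Ideal.mem_comap, map_natCast]
    exact hpw
  have hu𝔪 : ¬ u.asIdeal ∣ 𝔪 := by
    intro hdvd
    have h1 : (M : 𝓞 K) ∈ u.asIdeal := (Ideal.dvd_iff_le.mp hdvd) (Ideal.absNorm_mem 𝔪)
    have h2 := one_mem_of_coprime416 u.asIdeal
      ((Nat.Prime.coprime_iff_not_dvd hp).mpr hpM) hpu h1
    exact u.isPrime.ne_top ((Ideal.eq_top_iff_one _).mpr h2)
  -- the levels
  set 𝔫₀ : Ideal (𝓞 K) := u.asIdeal * 𝔪 with h𝔫₀
  have h𝔫₀ne : 𝔫₀ ≠ ⊥ := by
    rw [h𝔫₀, ← Ideal.zero_eq_bot]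
    exact mul_ne_zero u.ne_bot h𝔪ne
  have hu𝔫₀ : u.asIdeal ∣ 𝔫₀ := Dvd.intro _ rfl
  have h𝔪𝔫₀ : 𝔪 ∣ 𝔫₀ := Dvd.intro_left _ rfl
  have hu2 : ¬ u.asIdeal ^ 2 ∣ 𝔫₀ := by
    intro h1
    rw [h𝔫₀, pow_two] at h1
    exact hu𝔪 ((mul_dvd_mul_iff_left u.ne_bot).mp h1)
  set 𝔑₀ : Ideal (𝓞 K') := upI (K' := K') 𝔫₀ with h𝔑₀
  have h𝔑₀ne : 𝔑₀ ≠ ⊥ := by
    rw [h𝔑₀, upI, Ne, Ideal.map_eq_bot_iff_of_injective
      (FaithfulSMul.algebraMap_injective (𝓞 K) (𝓞 K'))]
    exact h𝔫₀ne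
  have hfin : {v : HeightOneSpectrum (𝓞 K') | v.asIdeal ∣ 𝔑₀}.Finite :=
    Ideal.finite_factors h𝔑₀ne
  have hmemS : ∀ w' : HeightOneSpectrum (𝓞 K'), w' ∈ hfin.toFinset ↔ w'.asIdeal ∣ 𝔑₀ := by
    intro w'
    rw [Set.Finite.mem_toFinset]
    rfl
  have hmemS' : ∀ w' : HeightOneSpectrum (𝓞 K'),
      w' ∈ hfin.toFinset ↔ (below416 (K := K) w').asIdeal ∣ 𝔫₀ := by
    intro w'
    rw [hmemS, h𝔑₀, dvd_upI_iff416]
  -- the orbit
  have horb_over : ∀ j : ℕ, PlaceOver K K' u (mapPlace416 (σ ^ j) w₀) := fun j =>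
    placeOver_mapPlace416 _ (placeOver_below416 w₀)
  have horb_below : ∀ j : ℕ, below416 (K := K) (mapPlace416 (σ ^ j) w₀) = u := fun j =>
    below_eq_of_placeOver416 (horb_over j)
  refine ⟨⟨ℓ, adelicAut930 σ.toRingEquiv, (algebraMap K K').fieldRange, ⟨μ, F, r⟩,
    ⟨μ', F', r'⟩, 𝔑₀, hfin.toFinset, u, fun j => mapPlace416 (σ ^ j) w₀⟩, ?_, ?_⟩
  · refine
      { deg := rfl
        cyc := ⟨hℓ.pos, ?_, ?_, ?_⟩
        base := ?_
        frame := ⟨hF, hr⟩
        frame' := ⟨hF', hr'⟩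
        aut := ?_
        level_le := ?_
        mem_S' := hmemS
        const := ?_
        orbit_rel := ?_
        orbit_ne := ?_
        orbit_over := horb_over
        orbit_level := ?_
        orbit_good := ?_
        base_level := ⟨𝔫₀, h𝔫₀ne, rfl, hu𝔫₀, hu2⟩
        orbit_all := ?_
        fibre := ?_ }
    · intro x
      show ((σ.toRingEquiv : RingAut K') ^ ℓ) x = x
      rw [toRingEquiv_pow930]
      exact hpow x
    · intro x
      show x ∈ (algebraMap K K').fieldRange ↔ σ x = x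
      rw [RingHom.mem_fieldRange]
      exact hfix x
    · intro j hj0 hjl
      obtain ⟨x, hx⟩ := hfaith j hj0 hjl
      refine ⟨x, ?_⟩
      show ((σ.toRingEquiv : RingAut K') ^ j) x ≠ x
      rw [toRingEquiv_pow930]
      exact hx
    · intro x
      show x ∈ (algebraMap K K').fieldRange ↔ _
      exact RingHom.mem_fieldRange
    · intro 𝔫
      exact autPreserves_all930 hLC hSC (adelicAut930 σ.toRingEquiv) (upI (K' := K') 𝔫)
        (map_level_stable930 σ 𝔫) μ' hF'.haar r' hr'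
    · -- level_le
      show upI (K' := K') 𝔫₀ ≤ Φ.level
      rw [upI, Ideal.map_le_iff_le_comap]
      exact (Ideal.dvd_iff_le.mp h𝔪𝔫₀).trans (Ideal.dvd_iff_le.mp hlev𝔪)
    · -- const
      intro w₁ hw₁ w₂ hw₂ v h1 h2
      have key : ∀ w' : HeightOneSpectrum (𝓞 K'), w' ∉ hfin.toFinset → w' ∉ Sexc := by
        intro w' hw' hmem
        apply hw'
        rw [hmemS']
        exact (hexc𝔪 w' hmem).trans h𝔪𝔫₀
      exact hSexc w₁ (key w₁ hw₁) w₂ (key w₂ hw₂) v h1 h2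
    · -- orbit_rel
      intro j
      show (mapPlace416 (σ ^ (j + 1)) w₀).asIdeal
        = Ideal.map (RingOfIntegers.mapRingEquiv σ.toRingEquiv) (mapPlace416 (σ ^ j) w₀).asIdeal
      rw [pow_succ', mapPlace_mul416]
      rfl
    · -- orbit_ne
      intro j hj0 hjl
      show mapPlace416 (σ ^ j) w₀ ≠ mapPlace416 (σ ^ 0) w₀
      rw [pow_zero, mapPlace_one416]
      exact mapPlace_pow_ne416 hℓ hcard hmoved' hj0 hjl
    · -- orbit_level
      intro j
      show mapPlace416 (σ ^ j) w₀ ∈ hfin.toFinset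
      rw [hmemS', horb_below j]
      exact hu𝔫₀
    · -- orbit_good
      intro j hdvd
      apply hu𝔪
      have h1 : Ideal.comap (algebraMap (𝓞 K) (𝓞 K')) Φ.level
          ≤ (below416 (K := K) (mapPlace416 (σ ^ j) w₀)).asIdeal :=
        Ideal.comap_mono (Ideal.dvd_iff_le.mp hdvd)
      rw [horb_below j] at h1
      exact (Ideal.dvd_iff_le.mpr h1).trans hlev𝔪
    · -- orbit_all
      intro w' hw'
      obtain ⟨τ, hτ⟩ := exists_mapPlace_eq416 (placeOver_below416 (K := K) w₀) hw'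
      have hσ1 : σ ≠ 1 := by
        rintro rfl
        exact hmoved' (mapPlace_one416 w₀)
      obtain ⟨j, hj, rfl⟩ := exists_pow_eq416 hℓ hcard hσ1 τ
      exact ⟨j, hj, hτ.symm⟩
    · -- fibre
      intro v w₁ w₂ h1 h2 hmem
      rw [hmemS'] at hmem ⊢
      rw [below_eq_of_placeOver416 h2]
      rwa [below_eq_of_placeOver416 h1] at hmem
  · -- the places outside `S'` are unramified
    intro v w' hvw hw' hdiv
    apply hw'
    show w' ∈ hfin.toFinset
    rw [hmemS', below_eq_of_placeOver416 hvw]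
    have hcomap : Ideal.comap (algebraMap (𝓞 K) (𝓞 K')) w'.asIdeal = v.asIdeal :=
      congrArg HeightOneSpectrum.asIdeal (below_eq_of_placeOver416 hvw)
    exact ((dvd_ramIdeal666 v w' hcomap hdiv).trans hram𝔪).trans h𝔪𝔫₀

end Main

end Fermat.Agent.LT.T7.H666

end
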