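import Mathlib
import Fermat.Agent.LT.T7.H305.MatchSpec
import Fermat.Agent.LT.T7.H666.SetupR

/-!
# Row LT, tower T7 (helper666): BRIDGE `IsUnramOut666` (common part) → `UnramOut305` (matching)

OFF-MAIN.  ADDITIVE.  No hole, nothing assumed.  Against `LT/T7/H305/MatchSpec.lean`
(helper305, sha256 541c6ac7) and `LT/T7/H666/SetupR.lean`.

The node `GlobMatchC305` (global matching from local matching) has the hypothesis
`UnramOut305 T₀`: every place of `K` outside `T₀` is unramified in `K'`.  The common part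
delivered by `setupRC666` has `IsUnramOut666 B`: every place of `K'` outside `B.S'` is unramified
over `K`.  For every finite set `T₀` of places of `K` which contains the places under `B.S'` the
first follows from the second (`unramOut305_of666`); the set of the places under `B.S'` is such
a set (`exists_below_finset666`).
-/

set_option autoImplicit false
set_option linter.unusedSectionVars false

open IsDedekindDomain NumberField AutomorphicForm

noncomputable section

namespace Fermat.Agent.LT.T7.H666

open Fermat.Agent.LT.H556 Fermat.Agent.LT.H556.A0 Fermat.Agent.LT.T7 Fermat.Agent.LT.T7.H893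
open Fermat.Agent.LT.T7.H305 Fermat.Agent.LT.T7.H416

variable {K K' : Type} [Field K] [NumberField K] [Field K'] [NumberField K'] [Algebra K K']

/-- `¬ w² ∣ v 𝒪_{K'}` in the form of `T6.InstSplitC`: some element of `v` is not in `w²`. -/
theorem exists_not_mem_sq666 {v : HeightOneSpectrum (𝓞 K)} {w : HeightOneSpectrum (𝓞 K')}
    (h : ¬ w.asIdeal ^ 2 ∣ upI (K' := K') v.asIdeal) :
    ∃ x : 𝓞 K, x ∈ v.asIdeal ∧ algebraMap (𝓞 K) (𝓞 K') x ∉ w.asIdeal ^ 2 := by
  by_contra hcon
  push Not at hcon
  apply h
  rw [Ideal.dvd_iff_le, upI, Ideal.map_le_iff_le_comap]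
  intro x hx
  exact hcon x hx

/-- The converse. -/
theorem not_sq_dvd_of_exists666 {v : HeightOneSpectrum (𝓞 K)} {w : HeightOneSpectrum (𝓞 K')}
    (h : ∃ x : 𝓞 K, x ∈ v.asIdeal ∧ algebraMap (𝓞 K) (𝓞 K') x ∉ w.asIdeal ^ 2) :
    ¬ w.asIdeal ^ 2 ∣ upI (K' := K') v.asIdeal := by
  obtain ⟨x, hx, hxw⟩ := h
  intro hdvd
  rw [Ideal.dvd_iff_le, upI, Ideal.map_le_iff_le_comap] at hdvd
  exact hxw (hdvd hx)

/-- **The bridge.**  If the common part is unramified outside `S'` and `T₀` contains the places
of `K` under `S'`, then every place of `K` outside `T₀` is unramified in `K'`. -/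
theorem unramOut305_of666 {B : L2Base K K'} (hB : IsUnramOut666 B)
    (T₀ : Finset (HeightOneSpectrum (𝓞 K)))
    (hT₀ : ∀ (v : HeightOneSpectrum (𝓞 K)) (w : HeightOneSpectrum (𝓞 K')),
      PlaceOver K K' v w → w ∈ B.S' → v ∈ T₀) :
    UnramOut305 (K' := K') T₀ := by
  intro v hv w hvw
  exact exists_not_mem_sq666 (hB v w hvw (fun hw => hv (hT₀ v w hvw hw)))

open Classical in
/-- The finite set of the places of `K` under the places of `S'`. -/
def belowSet666 (S' : Finset (HeightOneSpectrum (𝓞 K'))) : Finset (HeightOneSpectrum (𝓞 K)) :=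
  S'.image (below416 (K := K))

theorem mem_belowSet666 (S' : Finset (HeightOneSpectrum (𝓞 K')))
    {v : HeightOneSpectrum (𝓞 K)} {w : HeightOneSpectrum (𝓞 K')}
    (hvw : PlaceOver K K' v w) (hw : w ∈ S') : v ∈ belowSet666 (K := K) S' := by
  classical
  rw [belowSet666, Finset.mem_image]
  exact ⟨w, hw, below_eq_of_placeOver416 hvw⟩

theorem exists_over_of_mem_belowSet666 (S' : Finset (HeightOneSpectrum (𝓞 K')))
    {v : HeightOneSpectrum (𝓞 K)} (hv : v ∈ belowSet666 (K := K) S') :
    ∃ w ∈ S', PlaceOver K K' v w := by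
  classical
  rw [belowSet666, Finset.mem_image] at hv
  obtain ⟨w, hw, rfl⟩ := hv
  exact ⟨w, hw, placeOver_below416 w⟩

/-- **The bridge for the set of the places under `S'`.** -/
theorem unramOut305_belowSet666 {B : L2Base K K'} (hB : IsUnramOut666 B) :
    UnramOut305 (K' := K') (belowSet666 (K := K) B.S') :=
  unramOut305_of666 hB _ (fun _ _ hvw hw => mem_belowSet666 B.S' hvw hw)

/-- If `S'` is a union of fibres (`IsL2Base.fibre`), the places of `K'` over `belowSet666 S'`
are the places of `S'` (`IsOver305`). -/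
theorem isOver305_belowSet666 {ℓ : ℕ} {Φ : HeckeEigensystem K' ℂ} {B : L2Base K K'}
    (hB : IsL2Base ℓ Φ B) : IsOver305 (belowSet666 (K := K) B.S') B.S' := by
  intro w
  constructor
  · intro hw
    exact ⟨below416 w, mem_belowSet666 B.S' (placeOver_below416 w) hw, placeOver_below416 w⟩
  · rintro ⟨v, hv, hvw⟩
    obtain ⟨w', hw', hvw'⟩ := exists_over_of_mem_belowSet666 B.S' hv
    exact hB.fibre v w' w hvw' hvw hw'

end Fermat.Agent.LT.T7.H666

end
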